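import Fermat.Agent.BorelCombinatorics.EZero

/-!
# The orbit relation of a Borel automorphism is hyperfinite

The theorem of Weiss and of Slaman and Steel.
-/

set_option autoImplicit false

universe u

namespace FA.BorelCombinatorics

open Set Topology MeasureTheory

variable {X : Type u} [MeasurableSpace X] (T : X ≃ᵐ X)

/-- The iterates of an automorphism, indexed by the integers. -/
def iter (k : ℤ) (x : X) : X := (T.toEquiv ^ k : Equiv.Perm X) x

theorem iter_zero (x : X) : iter T 0 x = x := by simp [iter]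

theorem iter_add (a b : ℤ) (x : X) : iter T (a + b) x = iter T a (iter T b x) := by
  simp [iter, zpow_add]

theorem iter_neg_iter (a : ℤ) (x : X) : iter T (-a) (iter T a x) = x := by
  rw [← iter_add, neg_add_cancel, iter_zero]

theorem measurable_iter (k : ℤ) : Measurable (iter T k) := by
  induction k using Int.induction_on with
  | zero =>
    rw [show iter T 0 = id from funext (iter_zero T)]
    exact measurable_id
  | succ k ih =>
    rw [show iter T ((k : ℤ) + 1) = T ∘ iter T k from funext fun x => by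
      rw [add_comm, iter_add]
      simp [iter] ]
    exact T.measurable.comp ih
  | pred k ih =>
    rw [show iter T (-(k : ℤ) - 1) = T.symm ∘ iter T (-k) from funext fun x => by
      rw [sub_eq_add_neg, add_comm, iter_add]
      simp [iter] ]
    exact T.symm.measurable.comp ih

/-- The orbit relation of an automorphism. -/
def orbitRel : Setoid X where
  r x y := ∃ k, iter T k x = y
  iseqv := ⟨fun x => ⟨0, iter_zero T x⟩, fun ⟨k, h⟩ => ⟨-k, h ▸ iter_neg_iter T k _⟩,
    fun ⟨k, h⟩ ⟨l, h'⟩ => ⟨l + k, by rw [iter_add, h, h']⟩⟩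

variable [TopologicalSpace X] [PolishSpace X] [BorelSpace X]

theorem measurableSet_orbitRel : MeasurableSet {p : X × X | orbitRel T p.1 p.2} := by
  rw [show {p : X × X | orbitRel T p.1 p.2} = ⋃ k, {p | iter T k p.1 = p.2} from
    Set.ext fun p => by rw [mem_iUnion]; rfl]
  exact MeasurableSet.iUnion fun k =>
    measurableSet_eq_fun ((measurable_iter T k).comp measurable_fst) measurable_snd

omit [TopologicalSpace X] [PolishSpace X] [BorelSpace X] in
theorem countable_orbit (x : X) : {y | orbitRel T x y}.Countable := by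
  rw [show {y | orbitRel T x y} = range fun k => iter T k x from rfl]
  exact countable_range _

/-- The markers of an automorphism: Borel sets which decrease to the empty set and meet every
infinite orbit unboundedly in both directions. -/
theorem exists_two_sided_markers :
    ∃ C : ℕ → Set X, (∀ n, MeasurableSet (C n)) ∧ Antitone C ∧ ⋂ n, C n = ∅ ∧
      ∀ n x, Function.Injective (fun k => iter T k x) →
        ∀ m, (∃ i, m ≤ i ∧ iter T i x ∈ C n) ∧ ∃ i, i ≤ m ∧ iter T i x ∈ C n := by
  classical
  obtain ⟨A, hAm, hanti, hempty, hsub, hinf⟩ :=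
    exists_markers (measurableSet_orbitRel T) (countable_orbit T)
  let top : ℕ → Set X := fun n => A n ∩ ⋂ i : ℤ, {x | 0 < i → iter T i x ∉ A n}
  let bot : ℕ → Set X := fun n => A n ∩ ⋂ i : ℤ, {x | i < 0 → iter T i x ∉ A n}
  let hasTop : ℕ → Set X := fun n => ⋃ i, iter T i ⁻¹' top n
  let hasBot : ℕ → Set X := fun n => ⋃ i, iter T i ⁻¹' bot n
  have htop : ∀ n, MeasurableSet (top n) ∧ MeasurableSet (bot n) := fun n =>
    ⟨(hAm n).inter (MeasurableSet.iInter fun i => MeasurableSet.imp (MeasurableSet.const _)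
      (measurable_iter T i (hAm n)).compl),
    (hAm n).inter (MeasurableSet.iInter fun i => MeasurableSet.imp (MeasurableSet.const _)
      (measurable_iter T i (hAm n)).compl)⟩
  let S : Set X := (⋃ n, top n ∩ ⋂ m < n, (hasTop m)ᶜ) ∪
    (⋂ m, (hasTop m)ᶜ) ∩ ⋃ n, bot n ∩ ⋂ m < n, (hasBot m)ᶜ
  have hhas : ∀ n, MeasurableSet (hasTop n) ∧ MeasurableSet (hasBot n) := fun n =>
    ⟨MeasurableSet.iUnion fun i => measurable_iter T i (htop n).1,
      MeasurableSet.iUnion fun i => measurable_iter T i (htop n).2⟩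
  have hSm : MeasurableSet S := (MeasurableSet.iUnion fun n => (htop n).1.inter
      (MeasurableSet.iInter fun m => MeasurableSet.iInter fun _ => (hhas m).1.compl)).union
    ((MeasurableSet.iInter fun m => (hhas m).1.compl).inter
      (MeasurableSet.iUnion fun n => (htop n).2.inter
        (MeasurableSet.iInter fun m => MeasurableSet.iInter fun _ => (hhas m).2.compl)))
  have huniq : ∀ x i, x ∈ S → iter T i x ∈ S → i = 0 := fun x i hx hy => by
    simp only [S, top, bot, hasTop, hasBot, mem_union, mem_inter_iff, mem_iUnion, mem_iInter,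
      mem_compl_iff, mem_preimage, not_exists, mem_ofPred_eq] at hx hy
    rcases hx with ⟨n, ⟨hxA, hxmax⟩, hxm⟩ | ⟨hxno, n, ⟨hxA, hxmin⟩, hxm⟩ <;>
      rcases hy with ⟨m, ⟨hyA, hymax⟩, hym⟩ | ⟨hyno, m, ⟨hyA, hymin⟩, hym⟩
    · obtain rfl : n = m := le_antisymm
        (not_lt.1 fun h => hxm m h i ⟨hyA, hymax⟩)
        (not_lt.1 fun h => hym n h (-i) (by rw [iter_neg_iter]; exact ⟨hxA, hxmax⟩))
      refine le_antisymm (not_lt.1 fun h => hxmax i h hyA) (not_lt.1 fun h => ?_)
      exact hymax (-i) (neg_pos.2 h) ((iter_neg_iter T i x).symm ▸ hxA)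
    · exact absurd ⟨hxA, hxmax⟩ fun h => hyno n (-i) ((iter_neg_iter T i x).symm ▸ h)
    · exact absurd ⟨hyA, hymax⟩ (hxno m i)
    · obtain rfl : n = m := le_antisymm
        (not_lt.1 fun h => hxm m h i ⟨hyA, hymin⟩)
        (not_lt.1 fun h => hym n h (-i) (by rw [iter_neg_iter]; exact ⟨hxA, hxmin⟩))
      refine le_antisymm (not_lt.1 fun h => ?_) (not_lt.1 fun h => hxmin i h hyA)
      exact hymin (-i) (neg_lt_zero.2 h) ((iter_neg_iter T i x).symm ▸ hxA)
  let W : Set X := ⋃ i, iter T i ⁻¹' S
  let far : ℕ → Set X := fun n => ⋂ i : ℤ, {x | i.natAbs ≤ n → iter T i x ∉ S}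
  have hW : ∀ i x, iter T i x ∈ W ↔ x ∈ W := fun i x => by
    simp only [W, mem_iUnion, mem_preimage, ← iter_add]
    exact ⟨fun ⟨j, hj⟩ => ⟨j + i, hj⟩, fun ⟨j, hj⟩ => ⟨j - i, by rwa [sub_add_cancel]⟩⟩
  refine ⟨fun n => A n \ W ∪ W ∩ far n, fun n => ((hAm n).diff ?_).union (MeasurableSet.inter ?_
      (MeasurableSet.iInter fun i => MeasurableSet.imp (MeasurableSet.const _)
        (measurable_iter T i hSm).compl)), fun n m h => union_subset_union
      (sdiff_subset_sdiff_left (hanti h)) (inter_subset_inter_right _ fun x hx => ?_),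
    eq_empty_iff_forall_notMem.2 fun x hx => ?_, fun n x hinj m => ?_⟩
  · exact MeasurableSet.iUnion fun i => measurable_iter T i hSm
  · exact MeasurableSet.iUnion fun i => measurable_iter T i hSm
  · exact mem_iInter.2 fun i hi => mem_iInter.1 hx i (hi.trans h)
  · rw [mem_iInter] at hx
    by_cases hxW : x ∈ W
    · obtain ⟨i, hi⟩ := mem_iUnion.1 hxW
      have h := mem_iInter.1 ((hx i.natAbs).resolve_left fun h => h.2 hxW).2 i
      exact h le_rfl hi
    · exact (eq_empty_iff_forall_notMem.1 hempty x) (mem_iInter.2 fun k =>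
        ((hx k).resolve_right fun h => hxW h.1).1)
  by_cases hxW : x ∈ W
  · obtain ⟨j, hj⟩ := mem_iUnion.1 hxW
    have hmem : ∀ i : ℤ, n < (j - i).natAbs → iter T i x ∈ A n \ W ∪ W ∩ far n := fun i hi => by
      refine .inr ⟨(hW i x).2 hxW, mem_iInter.2 fun l hl hS => ?_⟩
      rw [← iter_add] at hS
      have := huniq (iter T j x) (l + i - j) hj (by rwa [← iter_add, sub_add_cancel])
      omega
    exact ⟨⟨max m (j + n + 1), le_max_left _ _, hmem _ (by omega)⟩,
      ⟨min m (j - n - 1), min_le_left _ _, hmem _ (by omega)⟩⟩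
  let I : Set ℤ := {i | iter T i x ∈ A n}
  have horb : {y | orbitRel T x y}.Infinite := infinite_range_of_injective hinj
  have hI : I.Infinite := fun hfin => hinf n x horb
    ((hfin.image fun i => iter T i x).subset fun y ⟨⟨i, hi⟩, hyA⟩ =>
      ⟨i, show iter T i x ∈ A n from hi.symm ▸ hyA, hi⟩)
  have hnoTop : ∀ k, x ∉ hasTop k ∧ x ∉ hasBot k := by
    intro k
    induction k using Nat.strong_induction_on with
    | _ k ih =>
      have hT : ∀ k, x ∉ hasTop k := fun k => by
        induction k using Nat.strong_induction_on with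
        | _ k ihk =>
          intro hk
          obtain ⟨i, hi⟩ := mem_iUnion.1 hk
          refine hxW (mem_iUnion.2 ⟨i, .inl (mem_iUnion.2 ⟨k, hi, mem_iInter₂.2 fun l hl h => ?_⟩)⟩)
          obtain ⟨j, hj⟩ := mem_iUnion.1 h
          exact ihk l hl (mem_iUnion.2 ⟨j + i, by rwa [mem_preimage, iter_add]⟩)
      refine ⟨hT k, fun hk => ?_⟩
      obtain ⟨i, hi⟩ := mem_iUnion.1 hk
      refine hxW (mem_iUnion.2 ⟨i, .inr ⟨mem_iInter.2 fun l h => ?_,
        mem_iUnion.2 ⟨k, hi, mem_iInter₂.2 fun l hl h => ?_⟩⟩⟩)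
      · obtain ⟨j, hj⟩ := mem_iUnion.1 h
        exact hT l (mem_iUnion.2 ⟨j + i, by rwa [mem_preimage, iter_add]⟩)
      · obtain ⟨j, hj⟩ := mem_iUnion.1 h
        exact (ih l hl).2 (mem_iUnion.2 ⟨j + i, by rwa [mem_preimage, iter_add]⟩)
  have hA' : ∀ i, iter T i x ∈ A n → iter T i x ∈ A n \ W ∪ W ∩ far n := fun i hi =>
    .inl ⟨hi, fun h => hxW ((hW i x).1 h)⟩
  constructor
  · by_contra hno
    push Not at hno
    obtain ⟨g, hg, hgmax⟩ := Int.exists_greatest_of_bdd (P := fun i => i ∈ I)
      ⟨m, fun i hi => le_of_not_ge fun h => hno i h (hA' i hi)⟩ hI.nonempty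
    refine (hnoTop n).1 (mem_iUnion.2 ⟨g, hg, mem_iInter.2 fun i hi hiA => ?_⟩)
    exact absurd (hgmax (i + g) (show iter T (i + g) x ∈ A n by rwa [iter_add])) (by omega)
  · by_contra hno
    push Not at hno
    obtain ⟨g, hg, hgmin⟩ := Int.exists_least_of_bdd (P := fun i => i ∈ I)
      ⟨m, fun i hi => le_of_not_ge fun h => hno i h (hA' i hi)⟩ hI.nonempty
    refine (hnoTop n).2 (mem_iUnion.2 ⟨g, hg, mem_iInter.2 fun i hi hiA => ?_⟩)
    exact absurd (hgmin (i + g) (show iter T (i + g) x ∈ A n by rwa [iter_add])) (by omega)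

/-- **Weiss, Slaman and Steel.** The orbit relation of a Borel automorphism is hyperfinite. -/
theorem isHyperfinite_orbitRel : IsHyperfinite (orbitRel T) := by
  classical
  obtain ⟨C, hCm, hanti, hempty, hC⟩ := exists_two_sided_markers T
  let Per : Set X := ⋃ k : {k : ℤ // k ≠ 0}, {x | iter T k x = x}
  have hPer : MeasurableSet Per := MeasurableSet.iUnion fun k =>
    measurableSet_eq_fun (measurable_iter T k) measurable_id
  have hPinv : ∀ i x, iter T i x ∈ Per ↔ x ∈ Per := fun i x => by
    simp only [Per, mem_iUnion, mem_ofPred_eq]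
    refine exists_congr fun k => ⟨fun h => ?_, fun h => ?_⟩
    · have := congrArg (iter T (-i)) h
      rwa [← iter_add, ← iter_add, show -i + k.1 + i = k.1 by ring, iter_neg_iter] at this
    · rw [← iter_add, add_comm, iter_add, h]
  have hinj : ∀ x ∉ Per, Function.Injective fun k => iter T k x := fun x hx a b hab => by
    by_contra hne
    refine hx (mem_iUnion.2 ⟨⟨-b + a, by omega⟩, ?_⟩)
    change iter T (-b + a) x = x
    rw [iter_add, show iter T a x = iter T b x from hab, iter_neg_iter]
  have hex : ∀ n x, ∃ d : ℕ, x ∈ Per ∨ iter T (-d) x ∈ C n := fun n x => by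
    by_cases hx : x ∈ Per
    · exact ⟨0, .inl hx⟩
    obtain ⟨i, hi, hiC⟩ := (hC n x (hinj x hx) 0).2
    exact ⟨(-i).toNat, .inr (by rwa [Int.toNat_of_nonneg (by omega), neg_neg])⟩
  let last : ℕ → X → X := fun n x => iter T (-((Nat.find (hex n x) : ℕ) : ℤ)) x
  have hlast : ∀ n, Measurable (last n) := fun n =>
    (measurable_from_prod_countable_left (f := fun p : X × ℕ => iter T (-(p.2 : ℤ)) p.1)
      fun d => measurable_iter T (-(d : ℤ))).comp (measurable_id.prodMk (measurable_find (hex n)
        fun d => hPer.union (measurable_iter T _ (hCm n))))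
  have hshift : ∀ n x (k : ℕ), x ∉ Per →
      (∀ i : ℕ, 1 ≤ i → i ≤ k → iter T i x ∉ C n) → last n (iter T k x) = last n x := by
    intro n x k hx hk
    have hd := (Nat.find_spec (hex n x)).resolve_left hx
    have e : Nat.find (hex n (iter T k x)) = k + Nat.find (hex n x) := by
      rw [Nat.find_eq_iff]
      refine ⟨.inr ?_, fun d hd' h => ?_⟩
      · rwa [← iter_add, show -((k + Nat.find (hex n x) : ℕ) : ℤ) + k
          = -(Nat.find (hex n x) : ℤ) by push_cast; ring]
      rcases h with h | h
      · exact hx ((hPinv _ _).1 h)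
      rw [← iter_add] at h
      rcases lt_or_ge d k with hdk | hdk
      · refine hk (k - d) (by omega) (by omega) ?_
        rwa [show ((k - d : ℕ) : ℤ) = -(d : ℤ) + k by omega]
      · refine Nat.find_min (hex n x) (show d - k < _ by omega) (.inr ?_)
        rwa [show -((d - k : ℕ) : ℤ) = -(d : ℤ) + k by omega]
    change iter T (-((Nat.find (hex n (iter T k x)) : ℕ) : ℤ)) (iter T k x) = _
    rw [e, ← iter_add]
    congr 1
    push_cast
    ring
  have hstep : ∀ n x, x ∉ Per → last (n + 1) x = last (n + 1) (last n x) := fun n x hx => by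
    have h := hshift (n + 1) (last n x) (Nat.find (hex n x)) (fun h => hx ((hPinv _ _).1 h))
      fun i hi1 hi2 h => by
        refine Nat.find_min (hex n x) (show Nat.find (hex n x) - i < _ by omega) (.inr ?_)
        simp only [last, ← iter_add] at h
        rw [show -((Nat.find (hex n x) - i : ℕ) : ℤ) = (i : ℤ) + -(Nat.find (hex n x) : ℤ) by omega]
        exact hanti (Nat.le_succ n) h
    rwa [show iter T (Nat.find (hex n x) : ℕ) (last n x) = x by
      simp only [last, ← iter_add, add_neg_cancel, iter_zero] ] at h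
  let key : ℕ → X → Option X := fun n x => if x ∈ Per then none else some (last n x)
  refine ⟨fun n => orbitRel T ⊓ Setoid.ker (key n), fun n => ?_, fun n x => ?_,
    fun n x y h => ⟨h.1, ?_⟩, fun x y => ⟨fun h => ?_, fun ⟨n, h⟩ => h.1⟩⟩
  · convert (measurableSet_orbitRel T).inter (((measurable_fst hPer).inter
      (measurable_snd hPer)).union (((measurable_fst hPer.compl).inter
        (measurable_snd hPer.compl)).inter (measurableSet_eq_fun
          ((hlast n).comp measurable_fst) ((hlast n).comp measurable_snd)))) using 1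
    ext p
    refine and_congr_right fun _ => ?_
    change key n p.1 = key n p.2 ↔ _
    by_cases h1 : p.1 ∈ Per <;> by_cases h2 : p.2 ∈ Per <;> simp [key, h1, h2]
  · by_cases hx : x ∈ Per
    · obtain ⟨⟨k, hk⟩, hkx⟩ := mem_iUnion.1 hx
      have hmul : ∀ q : ℤ, iter T (q * k) x = x := fun q => by
        induction q using Int.induction_on with
        | zero => rw [zero_mul, iter_zero]
        | succ q ih => rw [add_mul, one_mul, iter_add, hkx, ih]
        | pred q ih =>
          have := congrArg (iter T (-k)) hkx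
          rw [iter_neg_iter] at this
          rw [sub_mul, one_mul, sub_eq_add_neg, iter_add, ← this, ih]
      refine ((finite_Icc (0 : ℤ) |k|).image fun i => iter T i x).subset ?_
      rintro y ⟨⟨i, rfl⟩, -⟩
      refine ⟨i % k, ⟨Int.emod_nonneg _ hk, (Int.emod_lt_abs _ hk).le⟩, ?_⟩
      change iter T (i % k) x = iter T i x
      conv_rhs => rw [← Int.emod_add_ediv_mul i k, iter_add, hmul]
    · obtain ⟨e, he, heC⟩ := (hC n x (hinj x hx) 1).1
      refine ((finite_Icc (-(Nat.find (hex n x) : ℤ)) e).image fun i => iter T i x).subset ?_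
      rintro y ⟨⟨i, rfl⟩, hkey⟩
      have hy : iter T i x ∉ Per := fun h => hx ((hPinv i x).1 h)
      change key n x = key n (iter T i x) at hkey
      simp only [key, hx, hy, if_false, Option.some.injEq] at hkey
      change iter T (-((Nat.find (hex n x) : ℕ) : ℤ)) x =
        iter T (-((Nat.find (hex n (iter T i x)) : ℕ) : ℤ)) (iter T i x) at hkey
      rw [← iter_add] at hkey
      have hi := hinj x hx hkey
      refine ⟨i, ⟨by omega, not_lt.1 fun hlt => ?_⟩, rfl⟩
      refine Nat.find_min (hex n (iter T i x)) (show (i - e).toNat < _ by omega) (.inr ?_)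
      rw [← iter_add, show -((i - e).toNat : ℤ) + i = e by omega]
      exact heC
  · have hP := h.2
    change key n x = key n y at hP
    change key (n + 1) x = key (n + 1) y
    by_cases hx : x ∈ Per <;> by_cases hy : y ∈ Per <;> simp [key, hx, hy] at hP ⊢
    rw [hstep n x hx, hstep n y hy, hP]
  · by_cases hx : x ∈ Per
    · obtain ⟨i, rfl⟩ := h
      exact ⟨0, ⟨i, rfl⟩, show key 0 x = key 0 (iter T i x) by simp [key, hx, (hPinv i x).2 hx]⟩
    have key' : ∀ (k : ℕ) z, z ∉ Per → ∃ n, last n (iter T k z) = last n z := fun k z hz => by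
      induction k with
      | zero => exact ⟨0, by rw [Nat.cast_zero, iter_zero]⟩
      | succ k ih =>
        have hN : ∃ N, ∀ i : ℕ, 1 ≤ i → i ≤ k + 1 → iter T i z ∉ C N := by
          have : ∀ i : ℕ, ∃ N, iter T i z ∉ C N := fun i => not_forall.1 fun h =>
            eq_empty_iff_forall_notMem.1 hempty _ (mem_iInter.2 h)
          choose N hN using this
          exact ⟨(Finset.range (k + 2)).sup N, fun i _ hi h =>
            hN i (hanti (Finset.le_sup (Finset.mem_range.2 (by omega))) h)⟩
        obtain ⟨N, hN⟩ := hN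
        exact ⟨N, hshift N z (k + 1) hz hN⟩
    obtain ⟨i, rfl⟩ := h
    have hy : iter T i x ∉ Per := fun h => hx ((hPinv i x).1 h)
    rcases Int.eq_nat_or_neg i with ⟨k, rfl | rfl⟩
    · obtain ⟨n, hn⟩ := key' k x hx
      exact ⟨n, ⟨_, rfl⟩, show key n x = key n _ by simp [key, hx, hy, hn]⟩
    · obtain ⟨n, hn⟩ := key' k _ hy
      rw [← iter_add, add_neg_cancel, iter_zero] at hn
      exact ⟨n, ⟨_, rfl⟩, show key n x = key n _ by simp [key, hx, hy, hn]⟩

end FA.BorelCombinatorics
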