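import Fermat.Agent.Selection.LusinNovikov
import Mathlib.MeasureTheory.MeasurableSpace.Instances

/-!
# Counting the points of countable sections
-/

set_option autoImplicit false

universe u v

namespace FA.BorelCombinatorics

open Set Topology MeasureTheory

variable {X : Type u} [TopologicalSpace X] [PolishSpace X] [MeasurableSpace X] [BorelSpace X]
  {Y : Type v} [TopologicalSpace Y] [PolishSpace Y] [MeasurableSpace Y] [BorelSpace Y]

/-- The points over which a Borel set with countable sections has at least `n` points form a
Borel set. -/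
theorem measurableSet_le_encard (n : ℕ) {R : Set (X × Y)} (hR : MeasurableSet R)
    (hsec : ∀ x, {y | (x, y) ∈ R}.Countable) :
    MeasurableSet {x | (n : ℕ∞) ≤ {y | (x, y) ∈ R}.encard} := by
  induction n generalizing R with
  | zero => simp
  | succ n ih =>
    obtain ⟨hD, S, hSR, hSm, hSi, hSD⟩ := FA.Selection.exists_borel_uniformization hR hsec
    convert hD.inter (ih (hR.diff hSm) fun x => (hsec x).mono fun y hy => hy.1) using 1
    ext x
    rw [mem_inter_iff, mem_ofPred_eq, mem_ofPred_eq]
    by_cases hx : x ∈ Prod.fst '' R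
    · obtain ⟨⟨x, y₀⟩, hp, rfl⟩ := hSD.ge hx
      have e : {y | (x, y) ∈ R \ S} = {y | (x, y) ∈ R} \ {y₀} := Set.ext fun y =>
        ⟨fun h => ⟨h.1, fun hy => h.2 (mem_singleton_iff.1 hy ▸ hp)⟩,
          fun h => ⟨h.1, fun hy => h.2 (congrArg Prod.snd (hSi hy hp rfl))⟩⟩
      rw [and_iff_right hx, e,
        ← encard_sdiff_singleton_add_one (show y₀ ∈ {y | (x, y) ∈ R} from hSR hp)]
      push_cast
      exact ENat.add_le_add_iff_right ENat.one_ne_top
    · refine iff_of_false (fun h => hx ?_) fun h => hx h.1
      obtain ⟨y, hy⟩ := one_le_encard_iff_nonempty.1 (le_trans (by simp) h)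
      exact ⟨(x, y), hy, rfl⟩

/-- The number of points in a countable section is a Borel function. -/
theorem measurable_encard {R : Set (X × Y)} (hR : MeasurableSet R)
    (hsec : ∀ x, {y | (x, y) ∈ R}.Countable) :
    Measurable fun x => {y | (x, y) ∈ R}.encard := by
  refine ENat.measurable_iff.2 fun n => ?_
  convert (measurableSet_le_encard n hR hsec).diff (measurableSet_le_encard (n + 1) hR hsec)
    using 1
  ext x
  rw [mem_preimage, mem_singleton_iff, Set.mem_sdiff, mem_ofPred_eq, mem_ofPred_eq,
    not_le, Nat.cast_add, Nat.cast_one]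
  exact ⟨fun h => ⟨h.ge, by rw [h]; exact ENat.natCast_lt_add_one_iff.2 le_rfl⟩,
    fun h => le_antisymm (ENat.lt_natCast_add_one_iff.1 h.2) h.1⟩

/-- The points with a finite countable section form a Borel set. -/
theorem measurableSet_finite_section {R : Set (X × Y)} (hR : MeasurableSet R)
    (hsec : ∀ x, {y | (x, y) ∈ R}.Countable) :
    MeasurableSet {x | {y | (x, y) ∈ R}.Finite} := by
  simp only [← encard_ne_top_iff]
  exact (measurable_encard hR hsec (measurableSet_singleton ⊤)).compl

/-- The number of points in a finite section is a Borel function. -/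
theorem measurable_ncard {R : Set (X × Y)} (hR : MeasurableSet R)
    (hsec : ∀ x, {y | (x, y) ∈ R}.Countable) :
    Measurable fun x => {y | (x, y) ∈ R}.ncard :=
  (measurable_of_countable ENat.toNat).comp (measurable_encard hR hsec)

end FA.BorelCombinatorics
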