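import Fermat.Agent.BorelCombinatorics.Markers
import Fermat.Agent.SilverDichotomy.GZero

/-!
# The equivalence relation `E_0`

Eventual agreement of binary sequences is a hyperfinite Borel equivalence relation which is not
smooth.
-/

set_option autoImplicit false

universe u

namespace FA.BorelCombinatorics

open Set Topology MeasureTheory Filter FA.SilverDichotomy

/-- A hyperfinite equivalence relation: an increasing union of Borel equivalence relations with
finite classes. -/
def IsHyperfinite {X : Type u} [MeasurableSpace X] (s : Setoid X) : Prop :=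
  ∃ E : ℕ → Setoid X, (∀ n, MeasurableSet {p : X × X | E n p.1 p.2}) ∧
    (∀ n x, {y | E n x y}.Finite) ∧ (∀ n x y, E n x y → E (n + 1) x y) ∧
    ∀ x y, s x y ↔ ∃ n, E n x y

/-- Agreement from the index `n` on. -/
def tailAgree (n : ℕ) : Setoid (ℕ → Bool) where
  r x y := ∀ i, n ≤ i → x i = y i
  iseqv := ⟨fun _ _ _ => rfl, fun h i hi => (h i hi).symm,
    fun h h' i hi => (h i hi).trans (h' i hi)⟩

/-- The relation `E_0` of eventual agreement. -/
def eZero : Setoid (ℕ → Bool) where
  r x y := ∃ n, tailAgree n x y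
  iseqv := ⟨fun _ => ⟨0, fun _ _ => rfl⟩, fun ⟨n, h⟩ => ⟨n, (tailAgree n).symm h⟩,
    fun ⟨n, h⟩ ⟨m, h'⟩ => ⟨max n m, fun i hi =>
      (h i ((le_max_left _ _).trans hi)).trans (h' i ((le_max_right _ _).trans hi))⟩⟩

theorem measurableSet_tailAgree (n : ℕ) :
    MeasurableSet {p : (ℕ → Bool) × (ℕ → Bool) | tailAgree n p.1 p.2} := by
  change MeasurableSet {p : (ℕ → Bool) × (ℕ → Bool) | ∀ i, n ≤ i → p.1 i = p.2 i}
  simp only [ofPred_forall]
  exact MeasurableSet.iInter fun i => MeasurableSet.iInter fun _ =>
    measurableSet_eq_fun ((measurable_pi_apply i).comp measurable_fst)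
      ((measurable_pi_apply i).comp measurable_snd)

theorem measurableSet_eZero :
    MeasurableSet {p : (ℕ → Bool) × (ℕ → Bool) | eZero p.1 p.2} := by
  rw [show {p : (ℕ → Bool) × (ℕ → Bool) | eZero p.1 p.2} =
    ⋃ n, {p | tailAgree n p.1 p.2} from Set.ext fun p => by rw [mem_iUnion]; rfl]
  exact MeasurableSet.iUnion measurableSet_tailAgree

theorem finite_tailAgree_class (n : ℕ) (x : ℕ → Bool) : {y | tailAgree n x y}.Finite := by
  refine Set.Finite.subset (finite_range fun w : Fin n → Bool =>
    fun i => if h : i < n then w ⟨i, h⟩ else x i) fun y hy => ⟨fun i => y i, ?_⟩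
  funext i
  by_cases h : i < n
  · simp [h]
  · simp [h, (hy : tailAgree n x y) i (not_lt.1 h)]

theorem countable_eZero_class (x : ℕ → Bool) : {y | eZero x y}.Countable := by
  rw [show {y | eZero x y} = ⋃ n, {y | tailAgree n x y} from
    Set.ext fun y => by rw [mem_iUnion]; rfl]
  exact countable_iUnion fun n => (finite_tailAgree_class n x).countable

/-- `E_0` is hyperfinite. -/
theorem isHyperfinite_eZero : IsHyperfinite eZero :=
  ⟨tailAgree, measurableSet_tailAgree, finite_tailAgree_class,
    fun _ _ _ h i hi => h i (Nat.le_of_succ_le hi), fun _ _ => Iff.rfl⟩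

/-- **A set meeting every class of `E_0` exactly once lacks the property of Baire.** -/
theorem not_baireMeasurableSet_selector {T : Set (ℕ → Bool)}
    (hT : ∀ x, ∃! t, t ∈ T ∧ eZero x t) : ¬BaireMeasurableSet T := fun hB => by
  have hmeagre : IsMeagre T := isMeagre_of_gZero_independent hB fun x hx y hy hxy => by
    obtain ⟨n, -, hxn, hyn, hagree⟩ := hxy
    have e : x = y := (hT x).unique ⟨hx, eZero.refl x⟩ ⟨hy, n + 1, fun i hi => hagree i hi⟩
    simp [e, hyn] at hxn
  let flip : (Σ n, Fin n → Bool) → (ℕ → Bool) → ℕ → Bool := fun w x i =>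
    if h : i < w.1 then (w.2 ⟨i, h⟩ ^^ x i) else x i
  have hflip : ∀ w, Continuous (flip w) := fun w => continuous_pi fun i => by
    by_cases h : i < w.1 <;> simp only [flip, h, dif_pos, dif_neg, not_false_eq_true]
    exacts [(continuous_of_discreteTopology (f := fun b => w.2 ⟨i, h⟩ ^^ b)).comp
      (continuous_apply i), continuous_apply i]
  have hflip2 : ∀ w x, flip w (flip w x) = x := fun w x => by
    funext i
    by_cases h : i < w.1
    · simp [flip, h]
    · simp [flip, h]
  refine SilverDichotomy.not_isMeagre_of_isOpen (X := ℕ → Bool) isOpen_univ univ_nonempty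
    (isMeagre_mono (isMeagre_iUnion_countable fun w => hmeagre.preimage_of_isOpenMap (hflip w)
      (IsOpenMap.of_inverse (hflip w) (hflip2 w) (hflip2 w))) fun x _ => ?_)
  obtain ⟨t, ⟨ht, n, hn⟩, -⟩ := hT x
  refine mem_iUnion.2 ⟨⟨n, fun i => x i ^^ t i⟩, ?_⟩
  rw [mem_preimage]
  convert ht using 1
  funext i
  by_cases h : i < n
  · simp only [flip, h, dif_pos]
    cases x i <;> cases t i <;> rfl
  · simp [flip, h, hn i (not_lt.1 h)]

/-- **`E_0` is not smooth.** -/
theorem not_isSmooth_eZero : ¬IsSmooth eZero := fun h => by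
  have : PolishSpace (ℕ → Bool) := ⟨⟩
  obtain ⟨T, hTm, hT⟩ := exists_transversal_of_isSmooth countable_eZero_class h
  exact not_baireMeasurableSet_selector hT hTm.baireMeasurableSet

end FA.BorelCombinatorics
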