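import Fermat.Agent.Selection.LusinNovikov
import Mathlib.Combinatorics.SimpleGraph.Coloring.Vertex

/-!
# Borel colourings

The theorems of Kechris, Solecki and Todorcevic on Borel colourings of locally finite graphs
and of graphs of bounded degree, and Borel maximal independent sets.
-/

set_option autoImplicit false

universe u

namespace FA.BorelCombinatorics

open Set Topology MeasureTheory

variable {X : Type u} [TopologicalSpace X] [PolishSpace X] [MeasurableSpace X] [BorelSpace X]

/-- The points with a neighbour in a Borel set form a Borel set. -/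
theorem measurableSet_neighbours {G : SimpleGraph X}
    (hG : MeasurableSet {p : X × X | G.Adj p.1 p.2}) (hcount : ∀ x, (G.neighborSet x).Countable)
    {A : Set X} (hA : MeasurableSet A) : MeasurableSet {x | ∃ y ∈ A, G.Adj x y} := by
  convert (FA.Selection.exists_borel_uniformization (hG.inter (measurable_snd hA)) fun x =>
    (hcount x).mono fun y hy => hy.1).1 using 1
  ext x
  constructor
  · rintro ⟨y, hy, hxy⟩
    exact ⟨(x, y), ⟨hxy, hy⟩, rfl⟩
  · rintro ⟨⟨x, y⟩, ⟨hxy, hy⟩, rfl⟩
    exact ⟨y, hy, hxy⟩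

/-- A Borel locally countable graph in which no point is in the closure of its neighbourhood has
a countable Borel colouring. -/
theorem exists_countable_colouring {G : SimpleGraph X}
    (hG : MeasurableSet {p : X × X | G.Adj p.1 p.2}) (hcount : ∀ x, (G.neighborSet x).Countable)
    (hsep : ∀ x, x ∉ closure (G.neighborSet x)) : ∃ c : G.Coloring ℕ, Measurable c := by
  classical
  rcases isEmpty_or_nonempty X with hX | ⟨⟨x₀⟩⟩
  · exact ⟨SimpleGraph.Coloring.mk isEmptyElim fun {x} => isEmptyElim x, measurable_of_empty _⟩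
  obtain ⟨b, hbc, -, hb⟩ := TopologicalSpace.exists_countable_basis X
  obtain ⟨B, hB⟩ := hbc.exists_eq_range
    (let ⟨t, ht, _⟩ := hb.exists_subset_of_mem_open (mem_univ x₀) isOpen_univ; ⟨t, ht⟩)
  let p : X → ℕ → Prop := fun x k => x ∈ B k \ {z | ∃ y ∈ B k, G.Adj z y}
  have hp : ∀ x, ∃ k, p x k := fun x => by
    obtain ⟨t, ht, hxt, htsub⟩ :=
      hb.exists_subset_of_mem_open (hsep x) isClosed_closure.isOpen_compl
    obtain ⟨k, rfl⟩ := hB ▸ ht
    exact ⟨k, hxt, fun ⟨y, hy, hxy⟩ => htsub hy (subset_closure hxy)⟩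
  refine ⟨SimpleGraph.Coloring.mk (fun x => Nat.find (hp x)) fun {x y} hxy he => ?_,
    measurable_find hp fun k => ?_⟩
  · have hy := (Nat.find_spec (hp y)).1
    rw [← he] at hy
    exact (Nat.find_spec (hp x)).2 ⟨y, hy, hxy⟩
  · have hk : MeasurableSet (B k) := (hb.isOpen (hB ▸ mem_range_self k)).measurableSet
    exact hk.diff (measurableSet_neighbours hG hcount hk)

/-- **Kechris, Solecki and Todorcevic.** A locally finite Borel graph has a countable Borel
colouring. -/
theorem exists_countable_colouring_of_finite {G : SimpleGraph X}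
    (hG : MeasurableSet {p : X × X | G.Adj p.1 p.2}) (hfin : ∀ x, (G.neighborSet x).Finite) :
    ∃ c : G.Coloring ℕ, Measurable c :=
  exists_countable_colouring hG (fun x => (hfin x).countable) fun x hx =>
    G.loopless.irrefl x ((hfin x).isClosed.closure_subset hx)

/-- **A Borel maximal independent set.** A locally countable Borel graph with a countable Borel
colouring has a Borel maximal independent set. -/
theorem exists_maximal_independent {G : SimpleGraph X}
    (hG : MeasurableSet {p : X × X | G.Adj p.1 p.2}) (hcount : ∀ x, (G.neighborSet x).Countable)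
    (c : G.Coloring ℕ) (hc : Measurable c) :
    ∃ I : Set X, MeasurableSet I ∧ (∀ x ∈ I, ∀ y ∈ I, ¬G.Adj x y) ∧
      ∀ x ∉ I, ∃ y ∈ I, G.Adj x y := by
  classical
  let I : ℕ → Set X := fun n => Nat.rec ∅
    (fun k J => J ∪ c ⁻¹' {k} \ {x | ∃ y ∈ J, G.Adj x y}) n
  have hI : ∀ n, MeasurableSet (I n) := fun n => by
    induction n with
    | zero => exact MeasurableSet.empty
    | succ n ih =>
      exact ih.union ((hc (measurableSet_singleton n)).diff (measurableSet_neighbours hG hcount ih))
  have hmono : Monotone I := monotone_nat_of_le_succ fun n => subset_union_left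
  have hind : ∀ n, ∀ x ∈ I n, ∀ y ∈ I n, ¬G.Adj x y := fun n => by
    induction n with
    | zero => exact fun x hx => hx.elim
    | succ n ih =>
      rintro x (hx | ⟨hx, hx'⟩) y (hy | ⟨hy, hy'⟩) hxy
      · exact ih x hx y hy hxy
      · exact hy' ⟨x, hx, hxy.symm⟩
      · exact hx' ⟨y, hy, hxy⟩
      · exact c.valid hxy ((mem_singleton_iff.1 hx).trans (mem_singleton_iff.1 hy).symm)
  refine ⟨⋃ n, I n, MeasurableSet.iUnion hI, fun x hx y hy => ?_, fun x hx => ?_⟩
  · obtain ⟨n, hn⟩ := mem_iUnion.1 hx
    obtain ⟨m, hm⟩ := mem_iUnion.1 hy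
    exact hind (max n m) x (hmono (le_max_left _ _) hn) y (hmono (le_max_right _ _) hm)
  · by_contra hno
    exact hx (mem_iUnion.2 ⟨c x + 1, .inr ⟨rfl, fun ⟨y, hy, hxy⟩ =>
      hno ⟨y, mem_iUnion.2 ⟨c x, hy⟩, hxy⟩⟩⟩)

/-- **Kechris, Solecki and Todorcevic.** A Borel graph of degree at most `d` has a Borel
colouring with `d + 1` colours. -/
theorem exists_degree_colouring (d : ℕ) {G : SimpleGraph X}
    (hG : MeasurableSet {p : X × X | G.Adj p.1 p.2}) (hdeg : ∀ x, (G.neighborSet x).encard ≤ d) :
    ∃ c : G.Coloring (Fin (d + 1)), Measurable c := by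
  classical
  induction d generalizing G with
  | zero =>
    refine ⟨SimpleGraph.Coloring.mk (fun _ => 0) fun {x y} hxy => ?_, measurable_const⟩
    exact absurd hxy (Set.eq_empty_iff_forall_notMem.1
      (Set.encard_eq_zero.1 (nonpos_iff_eq_zero.1 ((hdeg x).trans_eq Nat.cast_zero))) y)
  | succ d ih =>
    have hfin : ∀ x, (G.neighborSet x).Finite := fun x => finite_of_encard_le_coe (hdeg x)
    obtain ⟨c₀, hc₀⟩ := exists_countable_colouring_of_finite hG hfin
    obtain ⟨I, hI, hind, hmax⟩ :=
      exists_maximal_independent hG (fun x => (hfin x).countable) c₀ hc₀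
    let H : SimpleGraph X :=
      { Adj := fun x y => G.Adj x y ∧ x ∉ I ∧ y ∉ I
        symm := ⟨fun x y h => ⟨h.1.symm, h.2.2, h.2.1⟩⟩
        loopless := ⟨fun x h => G.loopless.irrefl x h.1⟩ }
    have hH : MeasurableSet {p : X × X | H.Adj p.1 p.2} :=
      hG.inter ((measurable_fst hI.compl).inter (measurable_snd hI.compl))
    obtain ⟨c, hc⟩ := ih hH fun x => by
      by_cases hx : x ∈ I
      · simp [show H.neighborSet x = ∅ from eq_empty_iff_forall_notMem.2 fun y hy => hy.2.1 hx]
      obtain ⟨y, hy, hxy⟩ := hmax x hx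
      have h1 : H.neighborSet x ⊆ G.neighborSet x \ {y} :=
        fun z hz => ⟨hz.1, fun h => hz.2.2 (mem_singleton_iff.1 h ▸ hy)⟩
      refine (encard_le_encard h1).trans ?_
      rw [encard_sdiff_singleton_of_mem (show y ∈ G.neighborSet x from hxy)]
      exact (tsub_le_tsub_right (hdeg x) 1).trans (by simp)
    refine ⟨SimpleGraph.Coloring.mk (fun x => if x ∈ I then Fin.last _ else (c x).castSucc)
      fun {x y} hxy he => ?_, ?_⟩
    · by_cases hx : x ∈ I <;> by_cases hy : y ∈ I <;> simp only [hx, hy, if_true, if_false] at he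
      · exact hind x hx y hy hxy
      · exact (Fin.castSucc_lt_last _).ne he.symm
      · exact (Fin.castSucc_lt_last _).ne he
      · exact c.valid ⟨hxy, hx, hy⟩ (Fin.castSucc_injective _ he)
    · exact Measurable.ite hI measurable_const ((measurable_of_countable _).comp hc)

end FA.BorelCombinatorics
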