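import Fermat.Agent.BorelCombinatorics.LevelOrder
import Fermat.Agent.BorelCombinatorics.Automorphism
import Mathlib.Logic.Equiv.Nat

/-!
# Hyperfinite relations are generated by automorphisms
-/

set_option autoImplicit false

universe u

namespace FA.BorelCombinatorics

open Set Topology MeasureTheory

/-- A permutation of `{j | N = 0 ∨ j < N}` with a single orbit. -/
def orbitStep (N j : ℕ) : ℕ :=
  if N = 0 then Equiv.intEquivNat (Equiv.intEquivNat.symm j + 1) else (j + 1) % N

theorem orbitStep_valid (N j : ℕ) : N = 0 ∨ orbitStep N j < N := by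
  rcases eq_or_ne N 0 with rfl | hN
  · exact .inl rfl
  · exact .inr (by rw [orbitStep, if_neg hN]; exact Nat.mod_lt _ (Nat.pos_of_ne_zero hN))

theorem orbitStep_injective {N i j : ℕ} (hi : N = 0 ∨ i < N) (hj : N = 0 ∨ j < N)
    (e : orbitStep N i = orbitStep N j) : i = j := by
  rcases eq_or_ne N 0 with rfl | hN
  · simpa [orbitStep] using e
  · rw [orbitStep, orbitStep, if_neg hN, if_neg hN] at e
    have h : i % N = j % N := Nat.ModEq.add_right_cancel' 1 e
    rwa [Nat.mod_eq_of_lt (hi.resolve_left hN), Nat.mod_eq_of_lt (hj.resolve_left hN)] at h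

theorem exists_orbitStep_eq {N j : ℕ} (hj : N = 0 ∨ j < N) :
    ∃ i, (N = 0 ∨ i < N) ∧ orbitStep N i = j := by
  rcases eq_or_ne N 0 with rfl | hN
  · exact ⟨Equiv.intEquivNat (Equiv.intEquivNat.symm j - 1), .inl rfl, by simp [orbitStep]⟩
  · refine ⟨(j + (N - 1)) % N, .inr (Nat.mod_lt _ (Nat.pos_of_ne_zero hN)), ?_⟩
    rw [orbitStep, if_neg hN, Nat.mod_add_mod, show j + (N - 1) + 1 = j + N by omega,
      Nat.add_mod_right, Nat.mod_eq_of_lt (hj.resolve_left hN)]

theorem exists_iterate_orbitStep {N i j : ℕ} (hj : N = 0 ∨ j < N) (hi : N = 0 ∨ i < N) :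
    ∃ n, (orbitStep N)^[n] i = j ∨ (orbitStep N)^[n] j = i := by
  rcases eq_or_ne N 0 with rfl | hN
  · have key : ∀ (n a : ℕ), (orbitStep 0)^[n] a =
        Equiv.intEquivNat (Equiv.intEquivNat.symm a + n) := fun n a => by
      induction n with
      | zero => simp
      | succ n ih =>
        simp [Function.iterate_succ_apply', ih, orbitStep, add_assoc]
    rcases le_total (Equiv.intEquivNat.symm i) (Equiv.intEquivNat.symm j) with h | h
    · refine ⟨(Equiv.intEquivNat.symm j - Equiv.intEquivNat.symm i).toNat, .inl ?_⟩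
      rw [key, Int.toNat_of_nonneg (by omega), add_sub_cancel, Equiv.apply_symm_apply]
    · refine ⟨(Equiv.intEquivNat.symm i - Equiv.intEquivNat.symm j).toNat, .inr ?_⟩
      rw [key, Int.toNat_of_nonneg (by omega), add_sub_cancel, Equiv.apply_symm_apply]
  · have hi' := hi.resolve_left hN
    have hj' := hj.resolve_left hN
    have key : ∀ n, (orbitStep N)^[n] i = (i + n) % N := fun n => by
      induction n with
      | zero => simp [Nat.mod_eq_of_lt hi']
      | succ n ih =>
        rw [Function.iterate_succ_apply', ih, orbitStep, if_neg hN, Nat.mod_add_mod, add_assoc]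
    refine ⟨j + (N - i), .inl ?_⟩
    rw [key, show i + (j + (N - i)) = j + N by omega, Nat.add_mod_right, Nat.mod_eq_of_lt hj']

variable {X : Type u} [MeasurableSpace X] {s : Setoid X} {k : ℕ → X → ℝ}

theorem Levels.ncard_class_congr (_ : Levels s k) {x y : X} (hxy : s x y) :
    {z | s x z}.ncard = {z | s y z}.ncard := by
  rw [show {z | s x z} = {z | s y z} from Set.ext fun z => ⟨s.trans (s.symm hxy), s.trans hxy⟩]

/-- The step of the automorphism in a class with a least point. -/
def LowStep (s : Setoid X) (k : ℕ → X → ℝ) (x y : X) : Prop :=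
  s x y ∧ levelPos k y = orbitStep {z | s x z}.ncard (levelPos k x)

theorem Levels.lowStep_exists (h : Levels s k) {x : X} (hx : x ∈ levelLow k) :
    ∃ y, LowStep s k x y :=
  (h.exists_pos_eq_iff hx _).2 (orbitStep_valid _ _)

theorem Levels.lowStep_surjective (h : Levels s k) {y : X} (hy : y ∈ levelLow k) :
    ∃ x, LowStep s k x y := by
  obtain ⟨i, hi, e⟩ := exists_orbitStep_eq ((h.exists_pos_eq_iff hy _).1 ⟨y, s.refl y, rfl⟩)
  obtain ⟨x, hxy, rfl⟩ := (h.exists_pos_eq_iff hy _).2 hi
  exact ⟨x, s.symm hxy, by rw [← h.ncard_class_congr hxy, e]⟩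

theorem Levels.lowStep_right_unique (h : Levels s k) {x y y' : X} (hx : x ∈ levelLow k)
    (hy : LowStep s k x y) (hy' : LowStep s k x y') : y = y' :=
  h.pos_injective (s.trans (s.symm hy.1) hy'.1) (h.low_congr hy.1 hx) (hy.2.trans hy'.2.symm)

theorem Levels.lowStep_left_unique (h : Levels s k) {x x' y : X} (hx : x ∈ levelLow k)
    (hy : LowStep s k x y) (hy' : LowStep s k x' y) : x = x' := by
  have hxx : s x x' := s.trans hy.1 (s.symm hy'.1)
  refine h.pos_injective hxx hx (orbitStep_injective ((h.exists_pos_eq_iff hx _).1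
    ⟨x, s.refl x, rfl⟩) ((h.exists_pos_eq_iff hx _).1 ⟨x', hxx, rfl⟩) ?_)
  rw [← hy.2, h.ncard_class_congr hxx, ← hy'.2]

theorem Levels.lowStep_transitive (h : Levels s k) {T : X → X} {x y : X} (hx : x ∈ levelLow k)
    (hT : ∀ z, s x z → LowStep s k z (T z)) (hxy : s x y) : ∃ n, T^[n] x = y ∨ T^[n] y = x := by
  have key : ∀ z, s x z → ∀ n, s x (T^[n] z) ∧
      levelPos k (T^[n] z) = (orbitStep {w | s x w}.ncard)^[n] (levelPos k z) := by
    intro z hz n
    induction n with
    | zero => exact ⟨hz, rfl⟩
    | succ n ih =>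
      rw [Function.iterate_succ_apply', Function.iterate_succ_apply']
      refine ⟨s.trans ih.1 (hT _ ih.1).1, ?_⟩
      rw [(hT _ ih.1).2, ← h.ncard_class_congr ih.1, ih.2]
  obtain ⟨n, hn | hn⟩ := exists_iterate_orbitStep ((h.exists_pos_eq_iff hx _).1 ⟨y, hxy, rfl⟩)
    ((h.exists_pos_eq_iff hx _).1 ⟨x, s.refl x, rfl⟩)
  · exact ⟨n, .inl (h.pos_injective (s.trans (s.symm (key x (s.refl x) n).1) hxy)
      (h.low_congr (key x (s.refl x) n).1 hx) ((key x (s.refl x) n).2.trans hn))⟩
  · exact ⟨n, .inr (h.pos_injective (s.symm (key y hxy n).1)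
      (h.low_congr (key y hxy n).1 hx) ((key y hxy n).2.trans hn))⟩

variable [TopologicalSpace X] [PolishSpace X] [BorelSpace X]

omit [TopologicalSpace X] [PolishSpace X] [BorelSpace X] in
theorem Levels.measurableSet_rel (h : Levels s k) : MeasurableSet {p : X × X | s p.1 p.2} := by
  rw [show {p : X × X | s p.1 p.2} = ⋃ n, {p | k n p.1 = k n p.2} from
    Set.ext fun p => by rw [mem_iUnion]; exact h.rel _ _]
  exact MeasurableSet.iUnion fun n => measurableSet_eq_fun ((h.meas n).comp measurable_fst)
    ((h.meas n).comp measurable_snd)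

theorem Levels.measurableSet_low (h : Levels s k) : MeasurableSet (levelLow k) :=
  measurableSet_finite_section (R := {p : X × X | levelLt k p.2 p.1})
    (measurable_swap (measurableSet_levelLt h)) fun x =>
      (h.class_countable x).mono fun _ hy => s.symm (h.rel_of_lt hy)

theorem Levels.measurableSet_lowStep (h : Levels s k) :
    MeasurableSet {p : X × X | LowStep s k p.1 p.2} := by
  have hpos : Measurable (levelPos k) := measurable_ncard (R := {p : X × X | levelLt k p.2 p.1})
    (measurable_swap (measurableSet_levelLt h)) fun x =>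
      (h.class_countable x).mono fun _ hy => s.symm (h.rel_of_lt hy)
  have hN : Measurable fun x => {z | s x z}.ncard :=
    measurable_ncard h.measurableSet_rel h.class_countable
  have hstep : Measurable fun x => orbitStep {z | s x z}.ncard (levelPos k x) :=
    (measurable_of_countable fun p : ℕ × ℕ => orbitStep p.1 p.2).comp (hN.prodMk hpos)
  exact h.measurableSet_rel.inter
    (measurableSet_eq_fun (hpos.comp measurable_snd) (hstep.comp measurable_fst))

/-- **A hyperfinite relation is generated by a Borel automorphism.** -/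
theorem exists_automorphism (hs : IsHyperfinite s) :
    ∃ T : X ≃ᵐ X, ∀ x y, orbitRel T x y ↔ s x y := by
  classical
  obtain ⟨k, h⟩ := exists_levels hs
  let k' : ℕ → X → ℝ := fun n x => -k n x
  have h' : Levels s k' := h.neg
  let Succ : X → X → Prop := fun x y => levelLt k x y ∧ ∀ w, levelLt k x w → ¬levelLt k w y
  let G : X → X → Prop := fun x y =>
    if x ∈ levelLow k then LowStep s k x y
    else if x ∈ levelLow k' then LowStep s k' x y else Succ x y
  have hrel : ∀ x y, G x y → s x y := fun x y hxy => by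
    simp only [G] at hxy
    split_ifs at hxy
    exacts [hxy.1, hxy.1, h.rel_of_lt hxy.1]
  have habove : ∀ x, x ∉ levelLow k' → ∃ y, levelLt k x y := fun x hx => by
    by_contra hno
    refine hx (finite_empty.subset fun y hy => hno ⟨y, Levels.levelLt_neg.1 hy⟩)
  have hbelow : ∀ x, x ∉ levelLow k → ∃ y, levelLt k y x := fun x hx => by
    by_contra hno
    exact hx (finite_empty.subset fun y hy => hno ⟨y, hy⟩)
  have hsucc_unique : ∀ {x y y' : X}, Succ x y → Succ x y' → y = y' := fun {x y y'} a b => by
    by_contra hne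
    rcases h.trichotomy (s.trans (s.symm (h.rel_of_lt a.1)) (h.rel_of_lt b.1)) hne with c | c
    exacts [b.2 _ a.1 c, a.2 _ b.1 c]
  have hpred_unique : ∀ {x x' y : X}, Succ x y → Succ x' y → x = x' := fun {x x' y} a b => by
    by_contra hne
    rcases h.trichotomy (s.trans (h.rel_of_lt a.1) (s.symm (h.rel_of_lt b.1))) hne with c | c
    exacts [a.2 _ c b.1, b.2 _ c a.1]
  have hex : ∀ x, ∃ y, G x y := fun x => by
    simp only [G]
    split_ifs with h1 h2
    · exact h.lowStep_exists h1
    · exact h'.lowStep_exists h2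
    · obtain ⟨y, hy⟩ := habove x h2
      exact h.exists_succ hy
  choose T hT using hex
  have huniq : ∀ {x y}, G x y → T x = y := fun {x y} hy => by
    have := hT x
    simp only [G] at this hy
    split_ifs at this hy with h1 h2
    exacts [h.lowStep_right_unique h1 this hy, h'.lowStep_right_unique h2 this hy,
      hsucc_unique this hy]
  have hinj : Function.Injective T := fun x x' e => by
    have hx := hT x
    have hx' := hT x'
    have hxx : s x x' := s.trans (hrel _ _ hx) (s.symm (e ▸ hrel _ _ hx'))
    rw [← e] at hx'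
    by_cases h1 : x ∈ levelLow k
    · simp only [G, h1, h.low_congr hxx h1, if_true] at hx hx'
      exact h.lowStep_left_unique h1 hx hx'
    have h1' : x' ∉ levelLow k := fun hh => h1 (h.low_congr (s.symm hxx) hh)
    by_cases h2 : x ∈ levelLow k'
    · simp only [G, h1, h1', h2, h'.low_congr hxx h2, if_true, if_false] at hx hx'
      exact h'.lowStep_left_unique h2 hx hx'
    have h2' : x' ∉ levelLow k' := fun hh => h2 (h'.low_congr (s.symm hxx) hh)
    simp only [G, h1, h1', h2, h2', if_false] at hx hx'
    exact hpred_unique hx hx'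
  have hsurj : Function.Surjective T := fun y => by
    by_cases h1 : y ∈ levelLow k
    · obtain ⟨x, hx⟩ := h.lowStep_surjective h1
      exact ⟨x, huniq (by simp only [G, h.low_congr (s.symm hx.1) h1, if_true]; exact hx)⟩
    by_cases h2 : y ∈ levelLow k'
    · obtain ⟨x, hx⟩ := h'.lowStep_surjective h2
      refine ⟨x, huniq ?_⟩
      have h1' : x ∉ levelLow k := fun hh => h1 (h.low_congr hx.1 hh)
      simp only [G, h1', h'.low_congr (s.symm hx.1) h2, if_true, if_false]
      exact hx
    obtain ⟨z, hz⟩ := hbelow y h1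
    obtain ⟨x, hxy, hmin⟩ := h'.exists_succ (Levels.levelLt_neg.2 hz)
    have hxy' : s x y := h.rel_of_lt (Levels.levelLt_neg.1 hxy)
    refine ⟨x, huniq ?_⟩
    simp only [G, show x ∉ levelLow k from fun hh => h1 (h.low_congr hxy' hh),
      show x ∉ levelLow k' from fun hh => h2 (h'.low_congr hxy' hh), if_false]
    exact ⟨Levels.levelLt_neg.1 hxy, fun w hw hwy =>
      hmin w (Levels.levelLt_neg.2 hwy) (Levels.levelLt_neg.2 hw)⟩
  obtain ⟨σ, hσ, -, hσs⟩ :=
    FA.Selection.exists_borel_involutions s h.measurableSet_rel h.class_countable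
  have hlt := measurableSet_levelLt h
  have hSucc : MeasurableSet {p : X × X | Succ p.1 p.2} := by
    convert hlt.inter (MeasurableSet.iInter fun i =>
      (((measurable_fst (β := X)).prodMk ((hσ i).comp measurable_fst)) hlt).inter
        ((((hσ i).comp (measurable_fst (β := X))).prodMk measurable_snd) hlt) |>.compl) using 1
    ext p
    simp only [Succ, mem_ofPred_eq, mem_inter_iff, mem_iInter, mem_compl_iff, mem_preimage,
      Function.comp_apply, not_and]
    refine and_congr_right fun _ => ⟨fun hp i => hp (σ i p.1), fun hp w hw => ?_⟩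
    obtain ⟨i, rfl⟩ := (hσs _ _).1 (h.rel_of_lt hw)
    exact hp i hw
  have hlow : ∀ {k}, Levels s k → MeasurableSet {p : X × X | p.1 ∈ levelLow k} :=
    fun hk => measurable_fst hk.measurableSet_low
  have hG : MeasurableSet {p : X × X | G p.1 p.2} := by
    convert ((hlow h).inter h.measurableSet_lowStep).union ((hlow h).compl.inter
      (((hlow h').inter h'.measurableSet_lowStep).union ((hlow h').compl.inter hSucc))) using 1
    ext p
    by_cases h1 : p.1 ∈ levelLow k <;> by_cases h2 : p.1 ∈ levelLow k' <;> simp [G, h1, h2]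
  have hTm : Measurable T := FA.Selection.measurable_of_measurableSet_graph <| by
    convert hG using 1
    ext p
    refine ⟨fun e => ?_, fun hp => huniq hp⟩
    change G p.1 p.2
    rw [← (e : T p.1 = p.2)]
    exact hT p.1
  let E : X ≃ X := Equiv.ofBijective T ⟨hinj, hsurj⟩
  have hEs : Measurable E.symm := FA.Selection.measurable_of_measurableSet_graph <| by
    convert measurableSet_eq_fun (hTm.comp measurable_snd) (measurable_fst (β := X)) using 1
    ext p
    exact E.symm_apply_eq.trans eq_comm
  let Te : X ≃ᵐ X := { toEquiv := E, measurable_toFun := hTm, measurable_invFun := hEs }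
  refine ⟨Te, fun x y => ⟨fun hxy => ?_, fun hxy => ?_⟩⟩
  · obtain ⟨n, rfl⟩ := hxy
    induction n using Int.induction_on with
    | zero => rw [iter_zero]
    | succ n ih =>
      rw [add_comm, iter_add]
      exact s.trans ih (by simpa [iter, Te, E] using hrel _ _ (hT (iter Te n x)))
    | pred n ih =>
      refine s.trans ih (s.symm ?_)
      have e : iter Te (-(n : ℤ)) x = T (iter Te (-(n : ℤ) - 1) x) := by
        conv_lhs => rw [show -(n : ℤ) = 1 + (-n - 1) by ring, iter_add]
        simp [iter, Te, E]
      rw [e]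
      exact hrel _ _ (hT _)
  · have hit : ∀ (n : ℕ) z, iter Te n z = T^[n] z := fun n z => by
      rw [iter, zpow_natCast, Equiv.Perm.coe_pow]
      rfl
    suffices ∃ n, T^[n] x = y ∨ T^[n] y = x by
      obtain ⟨n, hn | hn⟩ := this
      · exact ⟨n, (hit n x).trans hn⟩
      · exact (orbitRel Te).symm ⟨n, (hit n y).trans hn⟩
    by_cases h1 : x ∈ levelLow k
    · refine h.lowStep_transitive h1 (fun z hz => ?_) hxy
      have := hT z
      simp only [G, h.low_congr hz h1, if_true] at this
      exact this
    by_cases h2 : x ∈ levelLow k'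
    · refine h'.lowStep_transitive h2 (fun z hz => ?_) hxy
      have := hT z
      have h1' : z ∉ levelLow k := fun hh => h1 (h.low_congr (s.symm hz) hh)
      simp only [G, h1', h'.low_congr hz h2, if_true, if_false] at this
      exact this
    have hTz : ∀ z, s x z → Succ z (T z) := fun z hz => by
      have := hT z
      have h1' : z ∉ levelLow k := fun hh => h1 (h.low_congr (s.symm hz) hh)
      have h2' : z ∉ levelLow k' := fun hh => h2 (h'.low_congr (s.symm hz) hh)
      simp only [G, h1', h2', if_false] at this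
      exact this
    have key : ∀ m a b, s x a → levelLt k a b →
        {w | levelLt k a w ∧ levelLt k w b}.ncard = m → ∃ n, T^[n] a = b := by
      intro m
      induction m using Nat.strong_induction_on with
      | _ m ih =>
        intro a b ha hab hm
        have hS := hTz a ha
        rcases eq_or_ne (T a) b with e | hne
        · exact ⟨1, e⟩
        have hsab : s (T a) b := s.trans (s.symm (h.rel_of_lt hS.1)) (h.rel_of_lt hab)
        have hlt : levelLt k (T a) b :=
          (h.trichotomy hsab hne).resolve_right fun c => hS.2 b hab c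
        have hsub : {w | levelLt k (T a) w ∧ levelLt k w b} ⊆
            {w | levelLt k a w ∧ levelLt k w b} := fun w hw => ⟨h.trans hS.1 hw.1, hw.2⟩
        obtain ⟨n, hn⟩ := ih _ (hm ▸ ncard_lt_ncard ((Set.ssubset_iff_of_subset hsub).2
          ⟨T a, ⟨hS.1, hlt⟩, fun hw => h.irrefl _ hw.1⟩) (h.finite_between a b))
          (T a) b (s.trans ha (h.rel_of_lt hS.1)) hlt rfl
        exact ⟨n + 1, by rwa [Function.iterate_succ_apply]⟩
    rcases eq_or_ne x y with rfl | hne
    · exact ⟨0, .inl rfl⟩
    rcases h.trichotomy hxy hne with c | c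
    · obtain ⟨n, hn⟩ := key _ x y (s.refl x) c rfl
      exact ⟨n, .inl hn⟩
    · obtain ⟨n, hn⟩ := key _ y x hxy c rfl
      exact ⟨n, .inr hn⟩

/-- **Hyperfiniteness and automorphisms.** A relation is hyperfinite exactly when it is the orbit
relation of a Borel automorphism. -/
theorem isHyperfinite_iff_exists_automorphism :
    IsHyperfinite s ↔ ∃ T : X ≃ᵐ X, ∀ x y, orbitRel T x y ↔ s x y := by
  refine ⟨exists_automorphism, fun ⟨T, hT⟩ => ?_⟩
  obtain ⟨E, hE, hfin, hmono, h⟩ := isHyperfinite_orbitRel T
  exact ⟨E, hE, hfin, hmono, fun x y => (hT x y).symm.trans (h x y)⟩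

end FA.BorelCombinatorics
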