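import Fermat.Agent.BorelCombinatorics.Counting
import Fermat.Agent.BorelCombinatorics.EZero
import Mathlib.Order.Interval.Set.Nat

/-!
# The order of a hyperfinite equivalence relation

A presentation of a hyperfinite relation by real invariants of its finite levels orders every
class so that the intervals are finite.
-/

set_option autoImplicit false

universe u

namespace FA.BorelCombinatorics

open Set Topology MeasureTheory

variable {X : Type u}

/-- Real invariants of the levels of a hyperfinite relation. The level zero is equality. -/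
structure Levels [MeasurableSpace X] (s : Setoid X) (k : ℕ → X → ℝ) : Prop where
  meas : ∀ n, Measurable (k n)
  inj : Function.Injective (k 0)
  persist : ∀ n x y, k n x = k n y → k (n + 1) x = k (n + 1) y
  fin : ∀ n x, {y | k n y = k n x}.Finite
  rel : ∀ x y, s x y ↔ ∃ n, k n x = k n y

/-- The order of the classes given by the levels. -/
def levelLt (k : ℕ → X → ℝ) (x y : X) : Prop :=
  ∃ n, k n x < k n y ∧ k (n + 1) x = k (n + 1) y

/-- The number of predecessors of a point. -/
noncomputable def levelPos (k : ℕ → X → ℝ) (x : X) : ℕ :=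
  {y | levelLt k y x}.ncard

/-- The points with finitely many predecessors. -/
def levelLow (k : ℕ → X → ℝ) : Set X :=
  {x | {y | levelLt k y x}.Finite}

variable [MeasurableSpace X] {s : Setoid X} {k : ℕ → X → ℝ}

namespace Levels

theorem neg (h : Levels s k) : Levels s (fun n x => -k n x) where
  meas n := (h.meas n).neg
  inj := neg_injective.comp h.inj
  persist n x y e := by rw [h.persist n x y (neg_injective e)]
  fin n x := (h.fin n x).subset fun y hy => neg_injective hy
  rel x y := (h.rel x y).trans
    (exists_congr fun n => ⟨fun e => by rw [e], fun e => neg_injective e⟩)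

omit [MeasurableSpace X] in
theorem levelLt_neg {x y : X} : levelLt (fun n x => -k n x) x y ↔ levelLt k y x :=
  exists_congr fun _ => and_congr neg_lt_neg_iff
    ⟨fun e => (neg_injective e).symm, fun e => congrArg Neg.neg e.symm⟩

theorem agree (h : Levels s k) {n m : ℕ} (hnm : n ≤ m) {x y : X} (e : k n x = k n y) :
    k m x = k m y := by
  induction hnm with
  | refl => exact e
  | step _ ih => exact h.persist _ _ _ ih

theorem rel_of_lt (h : Levels s k) {x y : X} (hxy : levelLt k x y) : s x y :=
  let ⟨n, _, e⟩ := hxy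
  (h.rel x y).2 ⟨n + 1, e⟩

theorem irrefl (_ : Levels s k) (x : X) : ¬levelLt k x x := fun ⟨_, hlt, _⟩ => lt_irrefl _ hlt

theorem trans (h : Levels s k) {x y z : X} (hxy : levelLt k x y) (hyz : levelLt k y z) :
    levelLt k x z := by
  obtain ⟨n, h1, e1⟩ := hxy
  obtain ⟨m, h2, e2⟩ := hyz
  rcases lt_trichotomy n m with hnm | rfl | hnm
  · exact ⟨m, (h.agree (Nat.succ_le_of_lt hnm) e1).symm ▸ h2,
      (h.agree (by omega) e1).trans e2⟩
  · exact ⟨n, h1.trans h2, e1.trans e2⟩
  · exact ⟨n, (h.agree (Nat.succ_le_of_lt hnm) e2) ▸ h1,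
      e1.trans (h.agree (by omega) e2)⟩

theorem trichotomy (h : Levels s k) {x y : X} (hxy : s x y) (hne : x ≠ y) :
    levelLt k x y ∨ levelLt k y x := by
  classical
  have hex := (h.rel x y).1 hxy
  have h0 : Nat.find hex ≠ 0 := fun e => hne (h.inj (e ▸ Nat.find_spec hex))
  obtain ⟨n, hn⟩ := Nat.exists_eq_succ_of_ne_zero h0
  have hspec : k (n + 1) x = k (n + 1) y := by
    have := Nat.find_spec hex
    rwa [hn] at this
  have hne' : k n x ≠ k n y := Nat.find_min hex (by omega)
  rcases lt_or_gt_of_ne hne' with hlt | hlt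
  exacts [.inl ⟨n, hlt, hspec⟩, .inr ⟨n, hlt, hspec.symm⟩]

theorem convex (h : Levels s k) {x y z : X} {N : ℕ} (e : k N x = k N y) (hxz : levelLt k x z)
    (hzy : levelLt k z y) : k N z = k N x := by
  obtain ⟨n, h1, e1⟩ := hxz
  obtain ⟨m, h2, e2⟩ := hzy
  by_cases hn : n < N
  · exact (h.agree hn e1).symm
  exfalso
  rcases lt_trichotomy n m with hnm | rfl | hnm
  · have hx : k m x = k m z := h.agree hnm e1
    exact (hx ▸ h2).ne (h.agree (by omega) e)
  · exact (h1.trans h2).ne (h.agree (by omega) e)
  · have hy : k n z = k n y := h.agree hnm e2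
    exact (hy ▸ h1).ne (h.agree (by omega) e)

theorem finite_between (h : Levels s k) (x y : X) :
    {z | levelLt k x z ∧ levelLt k z y}.Finite := by
  by_cases hxy : s x y
  · obtain ⟨N, e⟩ := (h.rel x y).1 hxy
    exact (h.fin N x).subset fun z hz => h.convex e hz.1 hz.2
  · exact finite_empty.subset fun z hz =>
      hxy (s.trans (h.rel_of_lt hz.1) (h.rel_of_lt hz.2))

theorem class_countable (h : Levels s k) (x : X) : {y | s x y}.Countable := by
  refine (countable_iUnion fun n => (h.fin n x).countable).mono fun y hy => ?_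
  obtain ⟨n, hn⟩ := (h.rel x y).1 hy
  exact mem_iUnion.2 ⟨n, hn.symm⟩

theorem low_congr (h : Levels s k) {x y : X} (hxy : s x y) (hx : x ∈ levelLow k) :
    y ∈ levelLow k := by
  refine ((hx.union (finite_singleton x)).union (h.finite_between x y)).subset fun z hz => ?_
  rcases eq_or_ne x z with rfl | hne
  · exact .inl (.inr rfl)
  rcases h.trichotomy (s.trans hxy (s.symm (h.rel_of_lt hz))) hne with h' | h'
  exacts [.inr ⟨h', hz⟩, .inl (.inl h')]

theorem pos_lt (h : Levels s k) {x y : X} (hy : y ∈ levelLow k) (hxy : levelLt k x y) :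
    levelPos k x < levelPos k y :=
  ncard_lt_ncard ((Set.ssubset_iff_of_subset fun _ hz => h.trans hz hxy).2
    ⟨x, hxy, h.irrefl x⟩) hy

theorem pos_injective (h : Levels s k) {x y : X} (hxy : s x y) (hx : x ∈ levelLow k)
    (e : levelPos k x = levelPos k y) : x = y := by
  by_contra hne
  rcases h.trichotomy hxy hne with h' | h'
  exacts [(h.pos_lt (h.low_congr hxy hx) h').ne e, (h.pos_lt hx h').ne e.symm]

theorem exists_pos_eq_of_lt (h : Levels s k) {x : X} (hx : x ∈ levelLow k) {j : ℕ}
    (hj : j < levelPos k x) : ∃ y, s x y ∧ levelPos k y = j := by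
  have hS : {y | levelLt k y x}.Finite := hx
  have hinj : InjOn (levelPos k) {y | levelLt k y x} := fun a ha b hb e =>
    h.pos_injective (s.trans (h.rel_of_lt ha) (s.symm (h.rel_of_lt hb)))
      (h.low_congr (s.symm (h.rel_of_lt ha)) hx) e
  have heq : levelPos k '' {y | levelLt k y x} = Iio (levelPos k x) := by
    refine eq_of_subset_of_ncard_le (image_subset_iff.2 fun y hy => h.pos_lt hx hy) ?_
      (finite_Iio _)
    rw [Set.ncard_Iio_nat, hinj.ncard_image]
    exact le_rfl
  obtain ⟨y, hy, e⟩ := heq.ge (mem_Iio.2 hj)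
  exact ⟨y, s.symm (h.rel_of_lt hy), e⟩

/-- In a class with a least point, the positions fill an initial segment of the natural numbers,
of the length of the class if this is finite. -/
theorem exists_pos_eq_iff (h : Levels s k) {x : X} (hx : x ∈ levelLow k) (j : ℕ) :
    (∃ y, s x y ∧ levelPos k y = j) ↔ ({y | s x y}.ncard = 0 ∨ j < {y | s x y}.ncard) := by
  have hinj : InjOn (levelPos k) {y | s x y} := fun a ha b hb e =>
    h.pos_injective (s.trans (s.symm ha) hb) (h.low_congr ha hx) e
  have hdown : ∀ y, s x y → ∀ i, i ≤ levelPos k y → i ∈ levelPos k '' {y | s x y} := by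
    intro y hy i hi
    rcases hi.eq_or_lt with rfl | hlt
    · exact mem_image_of_mem _ hy
    · obtain ⟨z, hz, e⟩ := h.exists_pos_eq_of_lt (h.low_congr hy hx) hlt
      exact ⟨z, s.trans hy hz, e⟩
  by_cases hfin : {y | s x y}.Finite
  · have hne : {y | s x y}.ncard ≠ 0 := (ncard_pos hfin).2 ⟨x, s.refl x⟩ |>.ne'
    rw [or_iff_right hne, ← hinj.ncard_image]
    constructor
    · rintro ⟨y, hy, rfl⟩
      have hsub : Iio (levelPos k y + 1) ⊆ levelPos k '' {y | s x y} := fun i hi =>
        hdown y hy i (Nat.le_of_lt_succ hi)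
      have := ncard_le_ncard hsub (hfin.image _)
      rw [Set.ncard_Iio_nat] at this
      omega
    · intro hj
      by_contra hno
      have hsub : levelPos k '' {y | s x y} ⊆ Iio j := by
        rintro _ ⟨y, hy, rfl⟩
        exact mem_Iio.2 (not_le.1 fun hle => hno (hdown y hy j hle))
      have := ncard_le_ncard hsub (finite_Iio j)
      rw [Set.ncard_Iio_nat] at this
      omega
  · refine iff_of_true ?_ (.inl (Infinite.ncard hfin))
    obtain ⟨_, ⟨y, hy, rfl⟩, hjy⟩ := (Infinite.image hinj hfin).exists_gt j
    exact hdown y hy j hjy.le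

/-- An immediate successor exists above any point which is not the greatest of its class. -/
theorem exists_succ (h : Levels s k) {x y : X} (hxy : levelLt k x y) :
    ∃ z, levelLt k x z ∧ ∀ w, levelLt k x w → ¬levelLt k w z := by
  induction hn : {w | levelLt k x w ∧ levelLt k w y}.ncard using Nat.strong_induction_on
    generalizing y with
  | _ n ih =>
    subst hn
    by_cases h0 : ∃ w, levelLt k x w ∧ levelLt k w y
    · obtain ⟨w, hxw, hwy⟩ := h0
      refine ih _ ?_ hxw rfl
      have hsub : {v | levelLt k x v ∧ levelLt k v w} ⊆ {v | levelLt k x v ∧ levelLt k v y} :=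
        fun v hv => ⟨hv.1, h.trans hv.2 hwy⟩
      exact ncard_lt_ncard ((Set.ssubset_iff_of_subset hsub).2
        ⟨w, ⟨hxw, hwy⟩, fun hv => h.irrefl w hv.2⟩) (h.finite_between x y)
    · exact ⟨y, hxy, fun w hw hwy => h0 ⟨w, hw, hwy⟩⟩

end Levels

variable [TopologicalSpace X] [PolishSpace X] [BorelSpace X]

omit [TopologicalSpace X] [PolishSpace X] [BorelSpace X] in
theorem measurableSet_levelLt (h : Levels s k) :
    MeasurableSet {p : X × X | levelLt k p.1 p.2} := by
  rw [show {p : X × X | levelLt k p.1 p.2} =
      ⋃ n, {p : X × X | k n p.1 < k n p.2} ∩ {p | k (n + 1) p.1 = k (n + 1) p.2} from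
    Set.ext fun p => by simp only [mem_iUnion]; rfl]
  exact MeasurableSet.iUnion fun n => (measurableSet_lt ((h.meas n).comp measurable_fst)
    ((h.meas n).comp measurable_snd)).inter (measurableSet_eq_fun
      ((h.meas (n + 1)).comp measurable_fst) ((h.meas (n + 1)).comp measurable_snd))

/-- Every hyperfinite relation has levels. -/
theorem exists_levels {s : Setoid X} (h : IsHyperfinite s) : ∃ k, Levels s k := by
  obtain ⟨E, hE, hfin, hstep, hs⟩ := h
  have : PolishSpace (ℕ → Bool) := ⟨⟩
  obtain ⟨e, he⟩ := exists_measurableEmbedding_real (ℕ → Bool)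
  obtain ⟨g, hg⟩ := exists_measurableEmbedding_real X
  choose f hf hfE using fun n => isSmooth_of_finite (hE n) (hfin n)
  refine ⟨fun n x => if n = 0 then g x else e (f (n - 1) x), fun n => ?_, ?_, fun n x y => ?_,
    fun n x => ?_, fun x y => ?_⟩
  · rcases n with _ | n
    · simpa using hg.measurable
    · simpa [Function.comp_def] using he.measurable.comp (hf n)
  · simpa using hg.injective
  · rcases n with _ | n
    · intro hxy
      rw [hg.injective (show g x = g y by simpa using hxy)]
    · intro hxy
      have := (hfE n x y).2 (he.injective (show e (f n x) = e (f n y) by simpa using hxy))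
      simp [(hfE (n + 1) x y).1 (hstep n x y this)]
  · rcases n with _ | n
    · exact (finite_singleton x).subset fun y hy =>
        mem_singleton_iff.2 (hg.injective (by simpa using hy))
    · exact (hfin n x).subset fun y hy =>
        (hfE n x y).2 (he.injective (show e (f n y) = e (f n x) by simpa using hy)).symm
  · refine (hs x y).trans ⟨fun ⟨n, hn⟩ => ⟨n + 1, by simp [(hfE n x y).1 hn]⟩, ?_⟩
    rintro ⟨_ | n, hn⟩
    · rw [hg.injective (show g x = g y by simpa using hn)]
      exact ⟨0, (E 0).refl y⟩
    · exact ⟨n, (hfE n x y).2 (he.injective (show e (f n x) = e (f n y) by simpa using hn))⟩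

end FA.BorelCombinatorics
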