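import Fermat.Agent.Selection.FeldmanMoore
import Mathlib.MeasureTheory.Constructions.Polish.EmbeddingReal

/-!
# Markers and smoothness for countable Borel equivalence relations

The marker lemma of Slaman and Steel, and Borel transversals.
-/

set_option autoImplicit false

universe u

namespace FA.BorelCombinatorics

open Set Topology MeasureTheory

variable {X : Type u} [TopologicalSpace X] [PolishSpace X] [MeasurableSpace X] [BorelSpace X]

/-- The points whose class meets a Borel set in an infinite set form a Borel set. -/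
theorem measurableSet_infinite_class {s : Setoid X}
    (hs : MeasurableSet {p : X × X | s p.1 p.2}) (hcount : ∀ x, {y | s x y}.Countable)
    {C : Set X} (hC : MeasurableSet C) :
    MeasurableSet {x | ({y | s x y} ∩ C).Infinite} := by
  classical
  obtain ⟨σ, hσ, -, h⟩ := FA.Selection.exists_borel_involutions s hs hcount
  have e : {x | ({y | s x y} ∩ C).Infinite} =
      ⋂ F : Finset ℕ, ⋃ n, σ n ⁻¹' C ∩ ⋂ i ∈ F, {x | σ i x = σ n x}ᶜ := by
    ext x
    simp only [mem_ofPred_eq, mem_iInter, mem_iUnion, mem_inter_iff, mem_preimage, mem_compl_iff]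
    constructor
    · intro hinf F
      obtain ⟨y, ⟨hy, hyC⟩, hyF⟩ := hinf.exists_notMem_finset (F.image fun i => σ i x)
      obtain ⟨n, rfl⟩ := (h x y).1 hy
      exact ⟨n, hyC, fun i hi he => hyF (Finset.mem_image.2 ⟨i, hi, he⟩)⟩
    · intro hF hfin
      choose g hg using fun y : hfin.toFinset => (h x y).1 ((hfin.mem_toFinset.1 y.2).1)
      obtain ⟨n, hn, hne⟩ := hF (Finset.univ.image g)
      have hmem : σ n x ∈ hfin.toFinset := hfin.mem_toFinset.2 ⟨(h x _).2 ⟨n, rfl⟩, hn⟩
      exact hne _ (Finset.mem_image.2 ⟨⟨_, hmem⟩, Finset.mem_univ _, rfl⟩) (hg ⟨_, hmem⟩)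
  rw [e]
  exact MeasurableSet.iInter fun F => MeasurableSet.iUnion fun n => (hσ n hC).inter
    (MeasurableSet.iInter fun i => MeasurableSet.iInter fun _ =>
      (measurableSet_eq_fun (hσ i) (hσ n)).compl)

/-- **The marker lemma of Slaman and Steel.** The infinite classes of a countable Borel
equivalence relation carry a decreasing sequence of Borel sets with empty intersection, each of
which meets every infinite class infinitely often. -/
theorem exists_markers {s : Setoid X} (hs : MeasurableSet {p : X × X | s p.1 p.2})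
    (hcount : ∀ x, {y | s x y}.Countable) :
    ∃ A : ℕ → Set X, (∀ n, MeasurableSet (A n)) ∧ Antitone A ∧ ⋂ n, A n = ∅ ∧
      (∀ n, A n ⊆ {x | {y | s x y}.Infinite}) ∧
      ∀ n x, {y | s x y}.Infinite → ({y | s x y} ∩ A n).Infinite := by
  classical
  obtain ⟨f, hf, hinj⟩ := MeasurableSpace.measurable_injection_nat_bool_of_countablySeparated X
  let cls : X → Set X := fun x => {y | s x y}
  have hcls : ∀ {x y}, s x y → cls x = cls y := fun {x y} h =>
    Set.ext fun z => ⟨s.trans (s.symm h), s.trans h⟩
  let Inf : Set X := {x | (cls x).Infinite}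
  let step : ℕ → Set X → Set X := fun n B => B ∩ {x |
    if (cls x ∩ (B ∩ {y | f y n = false})).Infinite then f x n = false else f x n = true}
  let B : ℕ → Set X := fun n => Nat.rec Inf step n
  have hfm : ∀ n b, MeasurableSet {y | f y n = b} := fun n b =>
    ((measurable_pi_apply n).comp hf) (measurableSet_singleton b)
  have hBm : ∀ n, MeasurableSet (B n) := fun n => by
    induction n with
    | zero =>
      simpa [B, Inf, cls] using measurableSet_infinite_class hs hcount MeasurableSet.univ
    | succ n ih =>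
      refine ih.inter ?_
      convert ((measurableSet_infinite_class hs hcount (ih.inter (hfm n false))).inter
        (hfm n false)).union ((measurableSet_infinite_class hs hcount
          (ih.inter (hfm n false))).compl.inter (hfm n true)) using 1
      ext x
      by_cases h : (cls x ∩ (B n ∩ {y | f y n = false})).Infinite
      · simp only [mem_ofPred_eq, mem_union, mem_inter_iff, mem_compl_iff]
        rw [if_pos h]
        exact ⟨fun e => .inl ⟨h, e⟩, fun e => e.elim (·.2) fun e => absurd h e.1⟩
      · simp only [mem_ofPred_eq, mem_union, mem_inter_iff, mem_compl_iff]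
        rw [if_neg h]
        exact ⟨fun e => .inr ⟨h, e⟩, fun e => e.elim (fun e => absurd e.1 h) (·.2)⟩
  have hanti : Antitone B := antitone_nat_of_succ_le fun n => inter_subset_left
  have hBinf : ∀ n x, (cls x).Infinite → (cls x ∩ B n).Infinite := fun n x hx => by
    induction n with
    | zero => exact hx.mono fun y hy => ⟨hy, show (cls y).Infinite from hcls hy ▸ hx⟩
    | succ n ih =>
      by_cases h : (cls x ∩ (B n ∩ {y | f y n = false})).Infinite
      · refine h.mono fun y hy => ⟨hy.1, hy.2.1, ?_⟩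
        rw [mem_ofPred_eq, ← hcls hy.1, if_pos h]
        exact hy.2.2
      · refine (ih.sdiff (not_infinite.1 h)).mono fun y hy => ⟨hy.1.1, hy.1.2, ?_⟩
        rw [mem_ofPred_eq, ← hcls hy.1.1, if_neg h]
        exact Bool.eq_true_of_not_eq_false fun hf' => hy.2 ⟨hy.1.1, hy.1.2, hf'⟩
  let Z : Set X := ⋂ n, B n
  have hZ : ∀ x, (cls x ∩ Z).Subsingleton := fun x y hy z hz => hinj <| funext fun n => by
    have h1 := (mem_iInter.1 hy.2 (n + 1)).2
    have h2 := (mem_iInter.1 hz.2 (n + 1)).2
    rw [mem_ofPred_eq, ← hcls hy.1] at h1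
    rw [mem_ofPred_eq, ← hcls hz.1] at h2
    split_ifs at h1 h2 with h <;> rw [h1, h2]
  refine ⟨fun n => B n \ Z, fun n => (hBm n).diff (MeasurableSet.iInter hBm),
    fun n m h => sdiff_subset_sdiff_left (hanti h), eq_empty_iff_forall_notMem.2 fun x hx => ?_,
    fun n x hx => hanti (Nat.zero_le n) hx.1, fun n x hx => ?_⟩
  · rw [mem_iInter] at hx
    exact (hx 0).2 (mem_iInter.2 fun n => (hx n).1)
  · exact ((hBinf n x hx).sdiff (hZ x).finite).mono fun y hy =>
      ⟨hy.1.1, hy.1.2, fun h => hy.2 ⟨hy.1.1, h⟩⟩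

/-- A smooth equivalence relation: one with a Borel complete invariant in Cantor space. -/
def IsSmooth (s : Setoid X) : Prop :=
  ∃ f : X → ℕ → Bool, Measurable f ∧ ∀ x y, s x y ↔ f x = f y

/-- A Borel transversal makes a Borel equivalence relation smooth. -/
theorem isSmooth_of_transversal {s : Setoid X} (hs : MeasurableSet {p : X × X | s p.1 p.2})
    {T : Set X} (hT : MeasurableSet T) (h : ∀ x, ∃! t, t ∈ T ∧ s x t) : IsSmooth s := by
  obtain ⟨f, hf, hinj⟩ := MeasurableSpace.measurable_injection_nat_bool_of_countablySeparated X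
  choose r hr hru using h
  have hrm : Measurable r := FA.Selection.measurable_of_measurableSet_graph <| by
    convert hs.inter (measurable_snd hT) using 1
    ext p
    refine ⟨fun he => ?_, fun he => (hru _ _ ⟨he.2, he.1⟩).symm⟩
    change r p.1 = p.2 at he
    change s p.1 p.2 ∧ p.2 ∈ T
    rw [← he]
    exact ⟨(hr p.1).2, (hr p.1).1⟩
  refine ⟨f ∘ r, hf.comp hrm, fun x y => ⟨fun hxy => congrArg f ?_, fun he => ?_⟩⟩
  · exact hru y (r x) ⟨(hr x).1, s.trans (s.symm hxy) (hr x).2⟩
  · exact s.trans (hr x).2 (s.symm (hinj he ▸ (hr y).2))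

/-- A smooth equivalence relation with countable classes has a Borel transversal. -/
theorem exists_transversal_of_isSmooth {s : Setoid X} (hcount : ∀ x, {y | s x y}.Countable)
    (h : IsSmooth s) : ∃ T : Set X, MeasurableSet T ∧ ∀ x, ∃! t, t ∈ T ∧ s x t := by
  obtain ⟨f, hf, hfs⟩ := h
  have : PolishSpace (ℕ → Bool) := ⟨⟩
  obtain ⟨-, S, hSR, hS, hSi, hSD⟩ := FA.Selection.exists_borel_uniformization
    (R := {p : (ℕ → Bool) × X | f p.2 = p.1})
    (measurableSet_eq_fun (hf.comp measurable_snd) measurable_fst) fun z => by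
      rcases {x | f x = z}.eq_empty_or_nonempty with h | ⟨x, hx⟩
      · exact (h ▸ countable_empty : {x | f x = z}.Countable)
      · exact (hcount x).mono fun y hy => (hfs x y).2 ((show f x = z from hx).trans hy.symm)
  refine ⟨{x | (f x, x) ∈ S}, (hf.prodMk measurable_id) hS, fun x => ?_⟩
  obtain ⟨⟨z, t⟩, ht, htz⟩ := hSD.ge ⟨(f x, x), rfl, rfl⟩
  obtain rfl : z = f x := htz
  have hft : f t = f x := hSR ht
  refine ⟨t, ⟨show (f t, t) ∈ S by rw [hft]; exact ht, (hfs x t).2 hft.symm⟩, fun u hu => ?_⟩
  exact congrArg Prod.snd (hSi hu.1 ht ((hfs x u).1 hu.2).symm)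

/-- **An equivalence relation with finite classes is smooth.** -/
theorem isSmooth_of_finite {s : Setoid X} (hs : MeasurableSet {p : X × X | s p.1 p.2})
    (hfin : ∀ x, {y | s x y}.Finite) : IsSmooth s := by
  obtain ⟨g, hg⟩ := exists_measurableEmbedding_real X
  obtain ⟨σ, hσ, -, h⟩ := FA.Selection.exists_borel_involutions s hs fun x => (hfin x).countable
  refine isSmooth_of_transversal hs (T := {x | ∀ n, g x ≤ g (σ n x)}) ?_ fun x => ?_
  · simp only [ofPred_forall]
    exact MeasurableSet.iInter fun n => measurableSet_le hg.measurable (hg.measurable.comp (hσ n))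
  obtain ⟨t, ht, hmin⟩ := exists_min_image {y | s x y} g (hfin x) ⟨x, s.refl x⟩
  refine ⟨t, ⟨fun n => hmin _ (s.trans ht ((h _ _).2 ⟨n, rfl⟩)), ht⟩, fun u hu => ?_⟩
  obtain ⟨n, hn⟩ := (h u t).1 (s.trans (s.symm hu.2) ht)
  exact hg.injective (le_antisymm (hn ▸ hu.1 n) (hmin u hu.2))

end FA.BorelCombinatorics
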